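/-
Certified truncated power-series arithmetic over `ℤ` (P-S28, WP-A, helper9).

`Trunc.Approx N G l` says: for all `n ≤ N`, `coeff n G = l.getD n 0`.
The list operations (`mulL`, `addL`, `powL`, `expandL`, ...) are computable, so that facts of the
form `∀ n ≤ N, coeff n G = 0` for polynomial expressions `G` in `ModularCurve.eisenstein4`,
`ModularCurve.etaProd`, `ModularCurve.dedekindEtaUnit`, `X` and `PowerSeries.expand` are reduced
to a kernel computation on explicit integer lists.
-/
import Mathlib
import Fermat.Prelude.Def_ModularCurve_X0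

set_option autoImplicit false

namespace Fermat.Agent.S28

open PowerSeries

namespace Trunc

/-! ### List operations -/

/-- `n`-th coefficient of the product of two coefficient lists. -/
def mulCoeff (l m : List ℤ) (n : ℕ) : ℤ :=
  ((List.range (n + 1)).map fun i => l.getD i 0 * m.getD (n - i) 0).sum

/-- truncated product -/
def mulL (N : ℕ) (l m : List ℤ) : List ℤ := (List.range (N + 1)).map (mulCoeff l m)

/-- truncated sum -/
def addL (N : ℕ) (l m : List ℤ) : List ℤ :=
  (List.range (N + 1)).map fun n => l.getD n 0 + m.getD n 0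

/-- truncated difference -/
def subL (N : ℕ) (l m : List ℤ) : List ℤ :=
  (List.range (N + 1)).map fun n => l.getD n 0 - m.getD n 0

/-- negation -/
def negL (N : ℕ) (l : List ℤ) : List ℤ := (List.range (N + 1)).map fun n => - l.getD n 0

/-- scalar multiple -/
def smulL (N : ℕ) (a : ℤ) (l : List ℤ) : List ℤ := (List.range (N + 1)).map fun n => a * l.getD n 0

/-- multiplication by `X ^ k` -/
def shiftL (N k : ℕ) (l : List ℤ) : List ℤ :=
  (List.range (N + 1)).map fun n => if k ≤ n then l.getD (n - k) 0 else 0

/-- substitution `X ↦ X ^ k` -/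
def expandL (N k : ℕ) (l : List ℤ) : List ℤ :=
  (List.range (N + 1)).map fun n => if n % k = 0 then l.getD (n / k) 0 else 0

/-- truncated power -/
def powL (N : ℕ) (l : List ℤ) : ℕ → List ℤ
  | 0 => [1]
  | (n + 1) => mulL N (powL N l n) l

/-- all of the first `N + 1` entries vanish -/
def isZeroL (N : ℕ) (l : List ℤ) : Bool := (List.range (N + 1)).all fun n => l.getD n 0 == 0

/-- the first `N + 1` entries agree -/
def eqL (N : ℕ) (l m : List ℤ) : Bool :=
  (List.range (N + 1)).all fun n => l.getD n 0 == m.getD n 0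

theorem getD_map_range (N : ℕ) (f : ℕ → ℤ) {n : ℕ} (hn : n ≤ N) :
    ((List.range (N + 1)).map f).getD n 0 = f n := by
  rw [List.getD_eq_getElem?_getD, List.getElem?_map, List.getElem?_range (by omega)]
  rfl

/-! ### The approximation predicate -/

/-- The coefficients of `G` of index `≤ N` are given by the list `l` (padded with zeros). -/
def Approx (N : ℕ) (G : PowerSeries ℤ) (l : List ℤ) : Prop :=
  ∀ n ≤ N, coeff n G = l.getD n 0

namespace Approx

variable {N : ℕ} {G H : PowerSeries ℤ} {l m : List ℤ}

theorem mono {N' : ℕ} (h : Approx N G l) (hN : N' ≤ N) : Approx N' G l :=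
  fun n hn => h n (hn.trans hN)

theorem congr {l' : List ℤ} (h : Approx N G l) (hl : eqL N l l' = true) : Approx N G l' := by
  intro n hn
  rw [h n hn]
  simp only [eqL, List.all_eq_true, List.mem_range, beq_iff_eq] at hl
  exact hl n (by omega)

theorem congr' {l' : List ℤ} (h : Approx N G l) (hl : l = l') : Approx N G l' := hl ▸ h

theorem eq_zero (h : Approx N G l) (hl : isZeroL N l = true) : ∀ n ≤ N, coeff n G = 0 := by
  intro n hn
  rw [h n hn]
  simp only [isZeroL, List.all_eq_true, List.mem_range, beq_iff_eq] at hl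
  exact hl n (by omega)

theorem add (hG : Approx N G l) (hH : Approx N H m) : Approx N (G + H) (addL N l m) := by
  intro n hn
  rw [addL, getD_map_range N _ hn, map_add, hG n hn, hH n hn]

theorem sub (hG : Approx N G l) (hH : Approx N H m) : Approx N (G - H) (subL N l m) := by
  intro n hn
  rw [subL, getD_map_range N _ hn, map_sub, hG n hn, hH n hn]

theorem neg (hG : Approx N G l) : Approx N (-G) (negL N l) := by
  intro n hn
  rw [negL, getD_map_range N _ hn, map_neg, hG n hn]

theorem mul (hG : Approx N G l) (hH : Approx N H m) : Approx N (G * H) (mulL N l m) := by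
  intro n hn
  rw [mulL, getD_map_range N _ hn, mulCoeff, PowerSeries.coeff_mul,
    Finset.Nat.sum_antidiagonal_eq_sum_range_succ (fun i j => coeff i G * coeff j H) n,
    ← List.sum_toFinset _ (List.nodup_range), List.toFinset_range]
  · refine Finset.sum_congr rfl fun i hi => ?_
    rw [Finset.mem_range] at hi
    rw [hG i (by omega), hH (n - i) (by omega)]

theorem C_mul (a : ℤ) (hG : Approx N G l) : Approx N (C a * G) (smulL N a l) := by
  intro n hn
  rw [smulL, getD_map_range N _ hn, PowerSeries.coeff_C_mul, hG n hn]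

theorem const (a : ℤ) : Approx N (C a) [a] := by
  intro n _
  rw [PowerSeries.coeff_C]
  rcases n with _ | n <;> simp

theorem one : Approx N (1 : PowerSeries ℤ) [1] := by
  simpa using const (N := N) 1

theorem zero : Approx N (0 : PowerSeries ℤ) [] := by
  intro n _
  simp

theorem intCast (a : ℤ) : Approx N ((a : ℤ) : PowerSeries ℤ) [a] := by
  have h : ((a : ℤ) : PowerSeries ℤ) = C a := by simp
  rw [h]
  exact const a

theorem natCast (a : ℕ) : Approx N ((a : ℕ) : PowerSeries ℤ) [(a : ℤ)] := by
  have h : ((a : ℕ) : PowerSeries ℤ) = C (a : ℤ) := by simp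
  rw [h]
  exact const _

theorem ofNat (a : ℕ) [a.AtLeastTwo] :
    Approx N (OfNat.ofNat a : PowerSeries ℤ) [(OfNat.ofNat a : ℤ)] := by
  have h : (OfNat.ofNat a : PowerSeries ℤ) = C (OfNat.ofNat a : ℤ) := by simp
  rw [h]
  exact const _

theorem X : Approx N (PowerSeries.X : PowerSeries ℤ) [0, 1] := by
  intro n _
  rw [PowerSeries.coeff_X]
  rcases n with _ | _ | n <;> simp

theorem X_pow_mul (k : ℕ) (hG : Approx N G l) :
    Approx N (PowerSeries.X ^ k * G) (shiftL N k l) := by
  intro n hn
  rw [shiftL, getD_map_range N _ hn, PowerSeries.coeff_X_pow_mul']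
  split_ifs with h
  · exact hG _ (by omega)
  · rfl

theorem X_mul (hG : Approx N G l) : Approx N (PowerSeries.X * G) (shiftL N 1 l) := by
  simpa using X_pow_mul 1 hG

theorem expand (k : ℕ) (hk : k ≠ 0) (hG : Approx N G l) :
    Approx N (PowerSeries.expand k hk G) (expandL N k l) := by
  intro n hn
  rw [expandL, getD_map_range N _ hn, PowerSeries.coeff_expand]
  by_cases h : k ∣ n
  · rw [if_pos h, if_pos (Nat.mod_eq_zero_of_dvd h)]
    exact hG _ ((Nat.div_le_self n k).trans hn)
  · rw [if_neg h, if_neg (fun h' => h (Nat.dvd_of_mod_eq_zero h'))]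

theorem pow (hG : Approx N G l) (k : ℕ) : Approx N (G ^ k) (powL N l k) := by
  induction k with
  | zero => simpa [powL] using (one : Approx N 1 [1])
  | succ k ih => rw [pow_succ]; exact ih.mul hG

end Approx

/-! ### Base series: `E₄` -/


/-- computable `σ₃` -/
def sigma3 (n : ℕ) : ℤ :=
  ((List.range (n + 1)).map fun d => if d ≠ 0 ∧ n % d = 0 then (d : ℤ) ^ 3 else 0).sum

theorem sigma3_eq (n : ℕ) (hn : n ≠ 0) : sigma3 n = ∑ d ∈ n.divisors, (d : ℤ) ^ 3 := by
  rw [sigma3, ← List.sum_toFinset _ (List.nodup_range), List.toFinset_range,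
    ← Finset.sum_filter]
  refine Finset.sum_congr ?_ fun _ _ => rfl
  ext d
  simp only [Finset.mem_filter, Finset.mem_range, Nat.mem_divisors]
  constructor
  · rintro ⟨_, _, h2⟩
    exact ⟨Nat.dvd_of_mod_eq_zero h2, hn⟩
  · rintro ⟨h1, _⟩
    refine ⟨Nat.lt_succ_of_le (Nat.le_of_dvd (Nat.pos_of_ne_zero hn) h1), ?_, Nat.mod_eq_zero_of_dvd h1⟩
    rintro rfl
    exact hn (Nat.eq_zero_of_zero_dvd h1)

/-- coefficient list of `ModularCurve.eisenstein4` -/
def e4L (N : ℕ) : List ℤ := (List.range (N + 1)).map fun n => if n = 0 then 1 else 240 * sigma3 n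

theorem approx_eisenstein4 (N : ℕ) : Approx N ModularCurve.eisenstein4 (e4L N) := by
  intro n hn
  rw [e4L, getD_map_range N _ hn, ModularCurve.eisenstein4, PowerSeries.coeff_mk]
  split_ifs with h
  · rfl
  · rw [sigma3_eq n h]


/-! ### Base series: the Euler product (via Mathlib's pentagonal number theorem) -/


theorem etaProd_eq_pentagonalSeries :
    ModularCurve.etaProd = PowerSeries.pentagonalSeries ℤ := by
  rw [ModularCurve.etaProd]
  exact PowerSeries.WithPiTopology.tprod_one_sub_X_pow ℤ

/-- computable coefficient of the Euler product (pentagonal number theorem):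
sum over `k ∈ [-n, n]` with `k (3 k - 1) = 2 n` of `(-1) ^ k`. -/
def etaCoeff (n : ℕ) : ℤ :=
  ((List.range (2 * n + 1)).map fun i : ℕ =>
    if ((i : ℤ) - n) * (3 * ((i : ℤ) - n) - 1) = 2 * n then (-1 : ℤ) ^ ((i : ℤ) - n).natAbs
    else 0).sum

theorem negOnePow_eq_pow_natAbs (k : ℤ) : ((Int.negOnePow k : ℤˣ) : ℤ) = (-1 : ℤ) ^ k.natAbs := by
  rw [← Int.negOnePow_abs, Int.abs_eq_natAbs, Int.coe_negOnePow_natCast]

theorem pentagonal_eq_iff (k : ℤ) (n : ℕ) : k * (3 * k - 1) = 2 * n ↔ pentagonal k = n := by
  rw [← two_mul_natCast_pentagonal]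
  omega

theorem natAbs_le_pentagonal (k : ℤ) : k.natAbs ≤ pentagonal k := by
  have h := two_mul_natCast_pentagonal k
  have h2 : (k.natAbs : ℤ) ≤ (pentagonal k : ℤ) := by
    rcases le_or_gt 0 k with hk | hk
    · rw [Int.natAbs_of_nonneg hk]
      rcases eq_or_lt_of_le hk with rfl | hk'
      · simp
      · nlinarith
    · rw [Int.ofNat_natAbs_of_nonpos hk.le]
      nlinarith
  exact_mod_cast h2

theorem coeff_etaProd (n : ℕ) : coeff n ModularCurve.etaProd = etaCoeff n := by
  rw [etaProd_eq_pentagonalSeries, etaCoeff, ← List.sum_toFinset _ (List.nodup_range),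
    List.toFinset_range]
  by_cases h : n ∈ Set.range pentagonal
  · obtain ⟨j, rfl⟩ := h
    have hj := natAbs_le_pentagonal j
    rw [coeff_pentagonalSeries_pentagonal, Finset.sum_eq_single (j + pentagonal j).toNat]
    · have h1 : (((j + pentagonal j).toNat : ℕ) : ℤ) - pentagonal j = j := by
        rw [Int.toNat_of_nonneg (by omega)]; ring
      rw [h1, if_pos ((pentagonal_eq_iff j _).2 rfl), Int.cast_id, negOnePow_eq_pow_natAbs]
    · intro i _ hi
      rw [if_neg]
      rw [pentagonal_eq_iff, pentagonal_inj]
      intro h2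
      apply hi
      omega
    · intro h2
      exfalso
      apply h2
      rw [Finset.mem_range]
      omega
  · rw [coeff_pentagonalSeries_eq_zero ℤ h]
    symm
    refine Finset.sum_eq_zero fun i _ => ?_
    rw [if_neg]
    rw [pentagonal_eq_iff]
    intro h2
    exact h ⟨_, h2⟩

/-- coefficient list of `ModularCurve.etaProd` -/
def etaL (N : ℕ) : List ℤ := (List.range (N + 1)).map etaCoeff

theorem approx_etaProd (N : ℕ) : Approx N ModularCurve.etaProd (etaL N) := by
  intro n hn
  rw [etaL, getD_map_range N _ hn, coeff_etaProd]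

theorem approx_dedekindEtaUnit (N : ℕ) :
    Approx N ModularCurve.dedekindEtaUnit (powL N (etaL N) 24) := by
  rw [ModularCurve.dedekindEtaUnit]
  exact (approx_etaProd N).pow 24





/-! ### Division by a series with constant coefficient `1` -/

/-- the first `n` coefficients of `f / k` (where `k` has constant coefficient `1`). -/
def divAux (f k : List ℤ) : ℕ → List ℤ
  | 0 => []
  | (n + 1) =>
    divAux f k n ++
      [f.getD n 0 - ((List.range n).map fun i => (divAux f k n).getD i 0 * k.getD (n - i) 0).sum]

/-- truncated quotient `f / k` (where `k` has constant coefficient `1`). -/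
def divL (N : ℕ) (f k : List ℤ) : List ℤ := divAux f k (N + 1)

theorem length_divAux (f k : List ℤ) (n : ℕ) : (divAux f k n).length = n := by
  induction n with
  | zero => rfl
  | succ n ih => rw [divAux, List.length_append, ih, List.length_singleton]

theorem divAux_spec {N : ℕ} {G K F : PowerSeries ℤ} {k f : List ℤ} (hK : Approx N K k)
    (hF : Approx N F f) (hk0 : k.getD 0 0 = 1) (h : G * K = F) (m : ℕ) (hm : m ≤ N + 1) :
    ∀ i < m, (divAux f k m).getD i 0 = coeff i G := by
  induction m with
  | zero => intro i hi; omega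
  | succ m ih =>
    have ih' := ih (by omega)
    intro i hi
    rw [divAux]
    rcases Nat.lt_succ_iff_lt_or_eq.1 hi with hi' | rfl
    · rw [List.getD_append _ _ _ _ (by rw [length_divAux]; exact hi')]
      exact ih' i hi'
    · rw [List.getD_append_right _ _ _ _ (by rw [length_divAux]), length_divAux, Nat.sub_self,
        List.getD_cons_zero]
      have h1 : coeff i F = ∑ j ∈ Finset.range (i + 1), coeff j G * coeff (i - j) K := by
        rw [← h, PowerSeries.coeff_mul,
          Finset.Nat.sum_antidiagonal_eq_sum_range_succ (fun a b => coeff a G * coeff b K) i]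
      rw [Finset.sum_range_succ, Nat.sub_self, hK 0 (by omega), hk0, mul_one] at h1
      rw [← hF i (by omega), h1, ← List.sum_toFinset _ (List.nodup_range), List.toFinset_range]
      have h2 : ∑ j ∈ Finset.range i, (divAux f k i).getD j 0 * k.getD (i - j) 0 =
          ∑ j ∈ Finset.range i, coeff j G * coeff (i - j) K := by
        refine Finset.sum_congr rfl fun j hj => ?_
        rw [Finset.mem_range] at hj
        rw [ih' j hj, hK (i - j) (by omega)]
      rw [h2]
      ring

/-- If `G * K = F` and `K` has constant coefficient `1`, the coefficients of `G` are obtained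
by truncated division. -/
theorem Approx.of_mul_eq {N : ℕ} {G K F : PowerSeries ℤ} {k f : List ℤ} (hK : Approx N K k)
    (hF : Approx N F f) (hk0 : k.getD 0 0 = 1) (h : G * K = F) : Approx N G (divL N f k) := by
  intro n hn
  rw [divL, divAux_spec hK hF hk0 h (N + 1) le_rfl n (by omega)]

end Trunc

end Fermat.Agent.S28
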