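/-
Modular-form q-series over the integers: level raising `f(z) ↦ f(N z)` as a modular form on
`Γ₀(N)`, closure properties, and the Sturm bound in the form used for the Hauptmodul identities
(statement S28, work package A).
-/
import Mathlib
import Fermat.Prelude.Thm_ModularForm_sturm_bound_Gamma0
import Fermat.Prelude.Def_ModularCurve_X0
import Fermat.Agent.S23.UFunction

set_option autoImplicit false

open UpperHalfPlane ModularForm Complex MatrixGroups CongruenceSubgroup Filter Function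
open scoped ModularForm Manifold Topology

namespace Fermat.Agent.S28

open Fermat.Agent.S23.UFunction (scale coe_scale)

/-! ### Restriction of the level -/

/-- Restrict a modular form to a smaller group. -/
noncomputable def restrictLevel {Γ Γ' : Subgroup (GL (Fin 2) ℝ)} (h : Γ' ≤ Γ) {k : ℤ}
    (f : ModularForm Γ k) : ModularForm Γ' k where
  toFun := f
  slash_action_eq' γ hγ := f.slash_action_eq' γ (h hγ)
  holo' := f.holo'
  bdd_at_cusps' hc := f.bdd_at_cusps' (hc.mono h)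

@[simp] theorem coe_restrictLevel {Γ Γ' : Subgroup (GL (Fin 2) ℝ)} (h : Γ' ≤ Γ) {k : ℤ}
    (f : ModularForm Γ k) : (restrictLevel h f : ℍ → ℂ) = f := rfl

/-! ### The matrix `diag(N, 1)` -/

/-- The matrix `diag(N, 1)` in `GL(2, ℝ)`. -/
noncomputable def diagN (N : ℕ) [NeZero N] : GL (Fin 2) ℝ :=
  Matrix.GeneralLinearGroup.mkOfDetNeZero !![(N : ℝ), 0; 0, 1] (by
    rw [Matrix.det_fin_two_of]
    simpa using (NeZero.ne N))

theorem diagN_val (N : ℕ) [NeZero N] : (diagN N).val = !![(N : ℝ), 0; 0, 1] := rfl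

theorem det_diagN (N : ℕ) [NeZero N] : (diagN N).det.val = (N : ℝ) := by
  simp [diagN, Matrix.det_fin_two_of]

theorem det_diagN_pos (N : ℕ) [NeZero N] : 0 < (diagN N).det.val := by
  rw [det_diagN]; exact Nat.cast_pos.mpr (NeZero.pos N)

theorem num_diagN (N : ℕ) [NeZero N] (z : ℂ) : num (diagN N) z = (N : ℂ) * z := by
  simp [num, diagN]

theorem denom_diagN (N : ℕ) [NeZero N] (z : ℂ) : denom (diagN N) z = 1 := by
  simp [denom, diagN]

theorem diagN_smul (N : ℕ) [NeZero N] (z : ℍ) : diagN N • z = scale N z := by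
  apply UpperHalfPlane.ext
  rw [coe_smul_of_det_pos (det_diagN_pos N), num_diagN, denom_diagN, coe_scale, div_one]

theorem σ_diagN (N : ℕ) [NeZero N] (w : ℂ) : σ (diagN N) w = w := by
  have h : 0 < (diagN N).val.det := by
    have := det_diagN_pos N
    simpa using this
  simp [σ, h]

theorem slash_diagN (N : ℕ) [NeZero N] (k : ℤ) (f : ℍ → ℂ) (z : ℍ) :
    (f ∣[k] diagN N) z = f (scale N z) * (N : ℂ) ^ (k - 1) := by
  rw [ModularForm.slash_apply, σ_diagN, diagN_smul, denom_diagN, one_zpow, mul_one, det_diagN,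
    abs_of_pos (Nat.cast_pos.mpr (NeZero.pos N))]
  simp

/-! ### Level raising -/

open ConjAct Pointwise in
theorem Gamma0_le_conj (N : ℕ) [NeZero N] :
    ((Gamma0 N : Subgroup SL(2, ℤ)) : Subgroup (GL (Fin 2) ℝ)) ≤
      toConjAct (diagN N)⁻¹ • 𝒮ℒ := by
  rintro _ ⟨γ, hγ, rfl⟩
  rw [Subgroup.mem_pointwise_smul_iff_inv_smul_mem, ← map_inv, inv_inv, ConjAct.toConjAct_smul]
  have hγ' := hγ
  rw [SetLike.mem_coe, Gamma0_mem, ZMod.intCast_zmod_eq_zero_iff_dvd] at hγ'
  obtain ⟨c', hc⟩ := hγ'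
  refine ⟨Fermat.Agent.S23.UFunction.conjMat N γ c' hc, ?_⟩
  rw [eq_mul_inv_iff_mul_eq]
  apply Matrix.GeneralLinearGroup.ext
  intro i j
  fin_cases i <;> fin_cases j <;>
    simp [diagN, Matrix.mul_apply, Fin.sum_univ_two, hc, mul_comm]

/-- The level raising operator `f(z) ↦ f(N z)`, from level one to `Γ₀(N)`. -/
noncomputable def levelRaise (N : ℕ) [NeZero N] {k : ℤ} (f : ModularForm 𝒮ℒ k) :
    ModularForm (Gamma0 N) k :=
  ((N : ℂ) ^ (k - 1))⁻¹ • restrictLevel (Gamma0_le_conj N) (ModularForm.translate f (diagN N))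

theorem levelRaise_apply (N : ℕ) [NeZero N] {k : ℤ} (f : ModularForm 𝒮ℒ k) (z : ℍ) :
    levelRaise N f z = f (scale N z) := by
  have hN : ((N : ℂ) ^ (k - 1)) ≠ 0 := zpow_ne_zero _ (Nat.cast_ne_zero.mpr (NeZero.ne N))
  rw [levelRaise, _root_.smul_apply, coe_restrictLevel, ModularForm.coe_translate,
    slash_diagN, smul_eq_mul, mul_comm, mul_assoc, mul_inv_cancel₀ hN, mul_one]

theorem coe_levelRaise (N : ℕ) [NeZero N] {k : ℤ} (f : ModularForm 𝒮ℒ k) :
    (levelRaise N f : ℍ → ℂ) = fun z => f (scale N z) :=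
  funext (levelRaise_apply N f)

/-- Level one forms viewed at level `Γ₀(N)`. -/
noncomputable def ofLevelOne (N : ℕ) {k : ℤ} (f : ModularForm 𝒮ℒ k) :
    ModularForm (Gamma0 N) k :=
  restrictLevel (by
    rintro _ ⟨γ, -, rfl⟩
    exact ⟨γ, rfl⟩) f

@[simp] theorem coe_ofLevelOne (N : ℕ) {k : ℤ} (f : ModularForm 𝒮ℒ k) :
    (ofLevelOne N f : ℍ → ℂ) = f := rfl

/-! ### q-expansions -/

theorem one_mem_strictPeriods_Gamma0 (N : ℕ) :
    (1 : ℝ) ∈ ((Gamma0 N : Subgroup SL(2, ℤ)) : Subgroup (GL (Fin 2) ℝ)).strictPeriods := by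
  simp [CongruenceSubgroup.strictPeriods_Gamma0]

theorem qExpansion_levelRaise (N : ℕ) [NeZero N] {k : ℤ} (f : ModularForm 𝒮ℒ k) :
    qExpansion 1 (levelRaise N f) = PowerSeries.expand N (NeZero.ne N) (qExpansion 1 f) := by
  rw [coe_levelRaise]
  refine Fermat.Agent.S23.UFunction.qExpansion_comp_scale N ?_ (ModularFormClass.holo f)
    (ModularFormClass.bdd_at_infty f)
  have h := SlashInvariantFormClass.periodic_comp_ofComplex f (h := 1) one_mem_strictPeriods_SL
  simpa using h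

theorem qExpansion_ofLevelOne (N : ℕ) {k : ℤ} (f : ModularForm 𝒮ℒ k) :
    qExpansion 1 (ofLevelOne N f) = qExpansion 1 f := rfl

/-! ### Integral q-series of modular forms on `Γ₀(N)` -/

/-- `G` is the q-expansion of a modular form of weight `k` on `Γ₀(N)`. -/
def IsMFSeries (N : ℕ) (k : ℤ) (G : PowerSeries ℤ) : Prop :=
  ∃ F : ModularForm (Gamma0 N) k, qExpansion 1 F = G.map (Int.castRingHom ℂ)

namespace IsMFSeries

variable {N : ℕ} {k k₁ k₂ : ℤ} {G G₁ G₂ : PowerSeries ℤ}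

theorem of_eq (h : IsMFSeries N k G) {k' : ℤ} {G' : PowerSeries ℤ} (hk : k = k') (hG : G = G') :
    IsMFSeries N k' G' := by
  subst hk hG; exact h

theorem add (h₁ : IsMFSeries N k G₁) (h₂ : IsMFSeries N k G₂) : IsMFSeries N k (G₁ + G₂) := by
  obtain ⟨F₁, hF₁⟩ := h₁
  obtain ⟨F₂, hF₂⟩ := h₂
  refine ⟨F₁ + F₂, ?_⟩
  rw [FunLike.coe_add, ModularForm.qExpansion_add one_pos (one_mem_strictPeriods_Gamma0 N),
    hF₁, hF₂, map_add]

theorem sub (h₁ : IsMFSeries N k G₁) (h₂ : IsMFSeries N k G₂) : IsMFSeries N k (G₁ - G₂) := by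
  obtain ⟨F₁, hF₁⟩ := h₁
  obtain ⟨F₂, hF₂⟩ := h₂
  refine ⟨F₁ - F₂, ?_⟩
  rw [FunLike.coe_sub, ModularForm.qExpansion_sub one_pos (one_mem_strictPeriods_Gamma0 N),
    hF₁, hF₂, map_sub]

theorem mul (h₁ : IsMFSeries N k₁ G₁) (h₂ : IsMFSeries N k₂ G₂) :
    IsMFSeries N (k₁ + k₂) (G₁ * G₂) := by
  obtain ⟨F₁, hF₁⟩ := h₁
  obtain ⟨F₂, hF₂⟩ := h₂
  refine ⟨F₁.mul F₂, ?_⟩
  rw [ModularForm.qExpansion_mul one_pos (one_mem_strictPeriods_Gamma0 N), hF₁, hF₂, map_mul]

theorem C_mul (a : ℤ) (h : IsMFSeries N k G) : IsMFSeries N k (PowerSeries.C a * G) := by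
  obtain ⟨F, hF⟩ := h
  refine ⟨(a : ℂ) • F, ?_⟩
  rw [FunLike.coe_smul, ModularForm.qExpansion_smul one_pos (one_mem_strictPeriods_Gamma0 N),
    hF, map_mul, PowerSeries.map_C, ← PowerSeries.smul_eq_C_mul]
  simp

theorem one : IsMFSeries N 0 1 := by
  refine ⟨1, ?_⟩
  rw [ModularForm.qExpansion_one]
  simp

theorem pow (h : IsMFSeries N k G) (n : ℕ) : IsMFSeries N (n * k) (G ^ n) := by
  induction n with
  | zero => simpa using (one : IsMFSeries N 0 1)
  | succ n ih =>
    refine (ih.mul h).of_eq ?_ (pow_succ G n).symm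
    push_cast; ring

end IsMFSeries

/-! ### The index of `Γ₀(p)` -/

theorem inv_mul_mem_Gamma0_iff' (N : ℕ) (γ γ' : SL(2, ℤ)) :
    γ⁻¹ * γ' ∈ Gamma0 N ↔
      ((γ 0 0 : ℤ) : ZMod N) * ((γ' 1 0 : ℤ) : ZMod N) -
        ((γ 1 0 : ℤ) : ZMod N) * ((γ' 0 0 : ℤ) : ZMod N) = 0 := by
  rw [Gamma0_mem]
  simp only [Matrix.SpecialLinearGroup.coe_mul, Matrix.mul_apply, Fin.sum_univ_two,
    Matrix.SpecialLinearGroup.coe_inv, Matrix.adjugate_fin_two, Matrix.of_apply, Matrix.cons_val',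
    Matrix.cons_val_zero, Matrix.cons_val_one, Matrix.empty_val', Matrix.cons_val_fin_one]
  push_cast
  constructor
  · intro h; linear_combination h
  · intro h; linear_combination h

/-- The point of the projective line over `ZMod p` attached to a matrix. -/
noncomputable def projPt (p : ℕ) (γ : SL(2, ℤ)) : Option (ZMod p) :=
  if ((γ 1 0 : ℤ) : ZMod p) = 0 then none
  else some (((γ 0 0 : ℤ) : ZMod p) * (((γ 1 0 : ℤ) : ZMod p))⁻¹)

theorem index_Gamma0_le (p : ℕ) [Fact p.Prime] : (Gamma0 p).index ≤ p + 1 := by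
  classical
  have hinj : Function.Injective
      (fun q : SL(2, ℤ) ⧸ Gamma0 p => projPt p (Quotient.out q)) := by
    intro q q' h
    rw [← Quotient.out_eq q, ← Quotient.out_eq q']
    change ((Quotient.out q : SL(2, ℤ)) : SL(2, ℤ) ⧸ Gamma0 p) = (Quotient.out q' : SL(2, ℤ))
    rw [QuotientGroup.eq, inv_mul_mem_Gamma0_iff']
    simp only [projPt] at h
    set γ := Quotient.out q
    set γ' := Quotient.out q'
    by_cases h1 : ((γ 1 0 : ℤ) : ZMod p) = 0 <;> by_cases h2 : ((γ' 1 0 : ℤ) : ZMod p) = 0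
    · rw [h1, h2]; ring
    · simp [h1, h2] at h
    · simp [h1, h2] at h
    · simp only [h1, h2, if_false, Option.some.injEq] at h
      have : ((γ 0 0 : ℤ) : ZMod p) * ((γ' 1 0 : ℤ) : ZMod p) =
          ((γ 1 0 : ℤ) : ZMod p) * ((γ' 0 0 : ℤ) : ZMod p) := by
        field_simp at h
        linear_combination h
      rw [this, sub_self]
  have h1 := Nat.card_le_card_of_injective _ hinj
  have h2 : Nat.card (Option (ZMod p)) = p + 1 := by
    rw [Nat.card_eq_fintype_card, Fintype.card_option, ZMod.card]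
  rw [h2] at h1
  exact h1

/-! ### The Sturm bound -/

theorem IsMFSeries.eq_zero {N : ℕ} [NeZero N] {k : ℤ} {G : PowerSeries ℤ} (h : IsMFSeries N k G)
    (hc : ∀ n : ℕ, n ≤ (k * (Gamma0 N).index).toNat / 12 → PowerSeries.coeff n G = 0) : G = 0 := by
  obtain ⟨F, hF⟩ := h
  have hF0 : F = 0 := by
    apply ModularForm.sturm_bound_Gamma0 N F
    intro n hn
    rw [hF, PowerSeries.coeff_map, hc n hn]
    simp
  rw [hF0] at hF
  have h0 : qExpansion 1 ((0 : ModularForm (Gamma0 N) k) : ℍ → ℂ) = 0 := by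
    rw [FunLike.coe_zero]; exact qExpansion_zero 1
  rw [h0] at hF
  ext n
  have := congrArg (PowerSeries.coeff n) hF
  rw [PowerSeries.coeff_map] at this
  simpa using this.symm

theorem IsMFSeries.eq_zero_of_prime {p : ℕ} [Fact p.Prime] {k : ℤ} {G : PowerSeries ℤ}
    (h : IsMFSeries p k G)
    (hc : ∀ n : ℕ, n ≤ (k * (p + 1)).toNat / 12 → PowerSeries.coeff n G = 0) : G = 0 := by
  have : NeZero p := ⟨(Fact.out : p.Prime).ne_zero⟩
  apply h.eq_zero
  intro n hn
  apply hc n (hn.trans _)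
  apply Nat.div_le_div_right
  rcases le_or_gt 0 k with hk | hk
  · apply Int.toNat_le_toNat
    apply mul_le_mul_of_nonneg_left _ hk
    exact_mod_cast index_Gamma0_le p
  · rw [Int.toNat_of_nonpos (mul_nonpos_of_nonpos_of_nonneg hk.le (by positivity))]
    exact Nat.zero_le _

/-! ### The basic series -/

section Basic

open EisensteinSeries ArithmeticFunction
open scoped ArithmeticFunction.sigma

theorem qExpansion_E4_eq :
    qExpansion 1 E₄ = ModularCurve.eisenstein4.map (Int.castRingHom ℂ) := by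
  ext n
  rw [E_qExpansion_coeff _ ⟨2, rfl⟩, PowerSeries.coeff_map, ModularCurve.eisenstein4,
    PowerSeries.coeff_mk, show bernoulli 4 = -1 / 30 by decide +kernel]
  split_ifs with hn
  · simp
  · simp only [eq_intCast, sigma_apply]
    push_cast
    ring

theorem isMFSeries_E4 (N : ℕ) : IsMFSeries N 4 ModularCurve.eisenstein4 :=
  ⟨ofLevelOne N E₄, by rw [qExpansion_ofLevelOne, qExpansion_E4_eq]⟩

theorem map_expand_int (N : ℕ) (hN : N ≠ 0) (G : PowerSeries ℤ) :
    (PowerSeries.expand N hN G).map (Int.castRingHom ℂ) =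
      PowerSeries.expand N hN (G.map (Int.castRingHom ℂ)) := by
  ext n
  rw [PowerSeries.coeff_map, PowerSeries.coeff_expand, PowerSeries.coeff_expand]
  split_ifs
  · rw [PowerSeries.coeff_map]
  · simp

theorem isMFSeries_E4_expand (N : ℕ) [NeZero N] :
    IsMFSeries N 4 (PowerSeries.expand N (NeZero.ne N) ModularCurve.eisenstein4) :=
  ⟨levelRaise N E₄, by rw [qExpansion_levelRaise, qExpansion_E4_eq, map_expand_int]⟩

/-- The discriminant as a level one modular form. -/
noncomputable def deltaMF : ModularForm 𝒮ℒ 12 :=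
  ModularFormClass.modularForm CuspForm.discriminant

theorem coe_deltaMF : (deltaMF : ℍ → ℂ) = ModularForm.discriminant := rfl

/-- The bridge between the analytic discriminant and the formal eta product: the q-expansion of
`Δ` is `q ∏ (1 - q ^ n) ^ 24`. -/
def DeltaBridge : Prop :=
  qExpansion 1 ModularForm.discriminant =
    (PowerSeries.X * ModularCurve.dedekindEtaUnit).map (Int.castRingHom ℂ)

theorem isMFSeries_Delta (hΔ : DeltaBridge) (N : ℕ) :
    IsMFSeries N 12 (PowerSeries.X * ModularCurve.dedekindEtaUnit) :=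
  ⟨ofLevelOne N deltaMF, by rw [qExpansion_ofLevelOne, coe_deltaMF]; exact hΔ⟩

theorem isMFSeries_Delta_expand (hΔ : DeltaBridge) (N : ℕ) [NeZero N] :
    IsMFSeries N 12
      (PowerSeries.expand N (NeZero.ne N) (PowerSeries.X * ModularCurve.dedekindEtaUnit)) :=
  ⟨levelRaise N deltaMF, by
    rw [qExpansion_levelRaise, coe_deltaMF, map_expand_int]
    exact congrArg _ hΔ⟩

end Basic

end Fermat.Agent.S28
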