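/-
The level two Hauptmodul identities (statement S28, work package A, item (H_2)):
with `E = eisenstein4`, `P = ∏ (1 - q ^ n) ^ 24`, `P₂ = P(q²)`, `E₂ = E(q²)`:
`E³ P P₂ = (P + 256 q P₂)³` and `E₂³ P P₂ = (P + 16 q P₂)³`, proved by the Sturm bound for
weight 36 forms on `Γ₀(2)`.  Consequences for `u = P / P₂` (so `t = q⁻¹ u = Δ(q)/Δ(q²)`):
`jNum * u² = (u + 256 q)³` and `jNum(q²) * u = (u + 16 q)³`.
-/
import Mathlib
import Fermat.Agent.S28.Hauptmodul.MFSeries
import Fermat.Agent.S28.Hauptmodul.H2Trunc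
import Fermat.Agent.S24.JQExp
import Fermat.Prelude.Def_ModularCurve_JqCoeff

set_option autoImplicit false

namespace Fermat.Agent.S28.H2

open PowerSeries ModularCurve

theorem clist_eisenstein4 :
    clist 10 ModularCurve.eisenstein4 =
      [1, 240, 2160, 6720, 17520, 30240, 60480, 82560, 140400, 181680] := by
  rw [clist_eq_of_forall (φ := fun n => if n = 0 then 1 else 240 * ∑ d ∈ n.divisors, (d : ℤ) ^ 3)
    (fun n _ => by rw [ModularCurve.eisenstein4, coeff_mk])]
  decide +kernel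

open scoped PowerSeries.WithPiTopology in
theorem etaProd_eq_pentagonal : ModularCurve.etaProd = pentagonalSeries ℤ :=
  PowerSeries.WithPiTopology.tprod_one_sub_X_pow ℤ

theorem not_mem_range_pentagonal {n : ℕ} (hn : n < 12)
    (h : ∀ k : ℤ, -3 ≤ k → k ≤ 3 → k * (3 * k - 1) ≠ 2 * n) : n ∉ Set.range pentagonal := by
  rintro ⟨k, hk⟩
  have h2 := two_mul_natCast_pentagonal k
  rw [hk] at h2
  have h3 : -3 ≤ k := by nlinarith
  have h4 : k ≤ 3 := by nlinarith
  exact h k h3 h4 h2.symm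

theorem clist_etaProd :
    clist 10 ModularCurve.etaProd = [1, -1, -1, 0, 0, 1, 0, 1, 0, 0] := by
  rw [etaProd_eq_pentagonal]
  have h0 : coeff 0 (pentagonalSeries ℤ) = 1 := by
    simpa [pentagonal] using coeff_pentagonalSeries_pentagonal ℤ 0
  have h1 : coeff 1 (pentagonalSeries ℤ) = -1 := by
    simpa [pentagonal] using coeff_pentagonalSeries_pentagonal ℤ 1
  have h2 : coeff 2 (pentagonalSeries ℤ) = -1 := by
    simpa [pentagonal] using coeff_pentagonalSeries_pentagonal ℤ (-1)
  have h5 : coeff 5 (pentagonalSeries ℤ) = 1 := by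
    simpa [pentagonal] using coeff_pentagonalSeries_pentagonal ℤ 2
  have h7 : coeff 7 (pentagonalSeries ℤ) = 1 := by
    simpa [pentagonal] using coeff_pentagonalSeries_pentagonal ℤ (-2)
  have h3 : coeff 3 (pentagonalSeries ℤ) = 0 :=
    coeff_pentagonalSeries_eq_zero ℤ (not_mem_range_pentagonal (by norm_num) (by decide))
  have h4 : coeff 4 (pentagonalSeries ℤ) = 0 :=
    coeff_pentagonalSeries_eq_zero ℤ (not_mem_range_pentagonal (by norm_num) (by decide))
  have h6 : coeff 6 (pentagonalSeries ℤ) = 0 :=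
    coeff_pentagonalSeries_eq_zero ℤ (not_mem_range_pentagonal (by norm_num) (by decide))
  have h8 : coeff 8 (pentagonalSeries ℤ) = 0 :=
    coeff_pentagonalSeries_eq_zero ℤ (not_mem_range_pentagonal (by norm_num) (by decide))
  have h9 : coeff 9 (pentagonalSeries ℤ) = 0 :=
    coeff_pentagonalSeries_eq_zero ℤ (not_mem_range_pentagonal (by norm_num) (by decide))
  simp [clist, List.range_succ, h0, h1, h2, h3, h4, h5, h6, h7, h8, h9]



/-- The discriminant series `q ∏ (1 - q ^ n) ^ 24`. -/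
noncomputable def DeltaS : PowerSeries ℤ := X * dedekindEtaUnit

/-- The list of the first ten coefficients of the discriminant series. -/
def deltaList : List ℤ := lshift 10 1 (lpow 10 [1, -1, -1, 0, 0, 1, 0, 1, 0, 0] 24)

theorem clist_DeltaS : clist 10 DeltaS = deltaList := by
  rw [DeltaS, clist_X_mul, dedekindEtaUnit, clist_pow, clist_etaProd, deltaList]

theorem deltaList_eq : deltaList = [0, 1, -24, 252, -1472, 4830, -6048, -16744, 84480, -113643] := by
  decide +kernel

/-- The first level two identity, as a weight 36 form. -/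
noncomputable def GA : PowerSeries ℤ :=
  eisenstein4 ^ 3 * DeltaS * expand 2 two_ne_zero DeltaS -
    (DeltaS + C 256 * expand 2 two_ne_zero DeltaS) ^ 3

/-- The second level two identity, as a weight 36 form. -/
noncomputable def GB : PowerSeries ℤ :=
  expand 2 two_ne_zero eisenstein4 ^ 3 * DeltaS * expand 2 two_ne_zero DeltaS -
    (DeltaS + C 16 * expand 2 two_ne_zero DeltaS) ^ 3

theorem clist_GA : clist 10 GA = List.replicate 10 0 := by
  rw [GA, clist_sub, clist_mul, clist_mul, clist_pow, clist_pow, clist_add, clist_C_mul,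
    clist_expand, clist_DeltaS, clist_eisenstein4, deltaList_eq]
  decide +kernel

theorem clist_GB : clist 10 GB = List.replicate 10 0 := by
  rw [GB, clist_sub, clist_mul, clist_mul, clist_pow, clist_pow, clist_add, clist_C_mul,
    clist_expand, clist_expand, clist_DeltaS, clist_eisenstein4, deltaList_eq]
  decide +kernel


/-! ### The Sturm bound argument -/

theorem deltaBridge : DeltaBridge := Fermat.Agent.S24.JQExp.qExpansion_discriminant

theorem isMFSeries_DeltaS : IsMFSeries 2 12 DeltaS := isMFSeries_Delta deltaBridge 2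

theorem isMFSeries_DeltaS_expand : IsMFSeries 2 12 (expand 2 two_ne_zero DeltaS) :=
  isMFSeries_Delta_expand deltaBridge 2

theorem isMFSeries_GA : IsMFSeries 2 36 GA := by
  unfold GA
  refine IsMFSeries.sub ?_ ?_
  · exact ((((isMFSeries_E4 2).pow 3).mul isMFSeries_DeltaS).mul isMFSeries_DeltaS_expand).of_eq
      (by norm_num) rfl
  · exact ((isMFSeries_DeltaS.add (isMFSeries_DeltaS_expand.C_mul 256)).pow 3).of_eq
      (by norm_num) rfl

theorem isMFSeries_GB : IsMFSeries 2 36 GB := by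
  unfold GB
  refine IsMFSeries.sub ?_ ?_
  · exact ((((isMFSeries_E4_expand 2).pow 3).mul isMFSeries_DeltaS).mul
      isMFSeries_DeltaS_expand).of_eq (by norm_num) rfl
  · exact ((isMFSeries_DeltaS.add (isMFSeries_DeltaS_expand.C_mul 16)).pow 3).of_eq
      (by norm_num) rfl

theorem sturm_two {G : PowerSeries ℤ} (h : IsMFSeries 2 36 G)
    (hc : clist 10 G = List.replicate 10 0) : G = 0 := by
  have : Fact (Nat.Prime 2) := ⟨Nat.prime_two⟩
  apply h.eq_zero_of_prime
  intro n hn
  have h9 : ((36 : ℤ) * (((2 : ℕ) : ℤ) + 1)).toNat / 12 = 9 := by decide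
  rw [h9] at hn
  exact coeff_eq_zero_of_clist hc (by omega)

theorem GA_eq_zero : GA = 0 := sturm_two isMFSeries_GA clist_GA

theorem GB_eq_zero : GB = 0 := sturm_two isMFSeries_GB clist_GB


/-! ### The identities in terms of `E`, `P`, `P₂` -/

/-- `P₂ = P(q²)`. -/
noncomputable def P2 : PowerSeries ℤ := expand 2 two_ne_zero dedekindEtaUnit

/-- `E₂ = E(q²)`. -/
noncomputable def E2 : PowerSeries ℤ := expand 2 two_ne_zero eisenstein4

theorem expand_DeltaS : expand 2 two_ne_zero DeltaS = X ^ 2 * P2 := by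
  rw [DeltaS, map_mul, expand_X, P2]

/-- First level two identity: `E³ P P₂ = (P + 256 q P₂)³`. -/
theorem H2a :
    eisenstein4 ^ 3 * dedekindEtaUnit * P2 = (dedekindEtaUnit + C 256 * X * P2) ^ 3 := by
  have h := GA_eq_zero
  rw [GA, expand_DeltaS, DeltaS, sub_eq_zero] at h
  apply X_pow_mul_cancel (k := 3)
  rw [show X ^ 3 * (eisenstein4 ^ 3 * dedekindEtaUnit * P2) =
    eisenstein4 ^ 3 * (X * dedekindEtaUnit) * (X ^ 2 * P2) by ring, h]
  ring

/-- Second level two identity: `E₂³ P P₂ = (P + 16 q P₂)³`. -/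
theorem H2b :
    E2 ^ 3 * dedekindEtaUnit * P2 = (dedekindEtaUnit + C 16 * X * P2) ^ 3 := by
  have h := GB_eq_zero
  rw [GB, expand_DeltaS, DeltaS, sub_eq_zero] at h
  apply X_pow_mul_cancel (k := 3)
  rw [show X ^ 3 * (E2 ^ 3 * dedekindEtaUnit * P2) =
    E2 ^ 3 * (X * dedekindEtaUnit) * (X ^ 2 * P2) by ring]
  rw [E2, h]
  ring

/-! ### The Hauptmodul series `u = P / P₂` -/

theorem constantCoeff_P2 : constantCoeff P2 = 1 := by
  rw [P2, constantCoeff_expand, constantCoeff_dedekindEtaUnit]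

/-- The inverse of `P₂`. -/
noncomputable def P2inv : PowerSeries ℤ := P2.invOfUnit 1

theorem P2_mul_inv : P2 * P2inv = 1 :=
  PowerSeries.mul_invOfUnit _ _ (by rw [constantCoeff_P2]; rfl)

/-- The series `u = P / P₂ = ∏ (1 + q ^ n) ^ (-24)`, so that `q⁻¹ u = Δ(q) / Δ(q²)`. -/
noncomputable def u2 : PowerSeries ℤ := dedekindEtaUnit * P2inv

theorem u2_mul_P2 : u2 * P2 = dedekindEtaUnit := by
  rw [u2, mul_assoc, mul_comm P2inv, P2_mul_inv, mul_one]

theorem constantCoeff_u2 : constantCoeff u2 = 1 := by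
  have h := congrArg constantCoeff u2_mul_P2
  rwa [map_mul, constantCoeff_P2, mul_one, constantCoeff_dedekindEtaUnit] at h

theorem expand_jNum : expand 2 two_ne_zero jNum = E2 ^ 3 * P2inv := by
  have h1 : expand 2 two_ne_zero dedekindEtaUnitInv * P2 = 1 := by
    rw [P2, ← map_mul, mul_comm, dedekindEtaUnit_mul_inv, map_one]
  have h2 : expand 2 two_ne_zero dedekindEtaUnitInv = P2inv := by
    calc expand 2 two_ne_zero dedekindEtaUnitInv
        = expand 2 two_ne_zero dedekindEtaUnitInv * (P2 * P2inv) := by rw [P2_mul_inv, mul_one]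
      _ = (expand 2 two_ne_zero dedekindEtaUnitInv * P2) * P2inv := by ring
      _ = P2inv := by rw [h1, one_mul]
  rw [jNum, map_mul, map_pow, h2, E2]

/-- `j t² = (t + 256)³` in power series form (`t = q⁻¹ u`). -/
theorem jNum_mul_u2_sq : jNum * u2 ^ 2 = (u2 + C 256 * X) ^ 3 := by
  have hP := dedekindEtaUnit_mul_inv
  have hQ := P2_mul_inv
  calc jNum * u2 ^ 2
      = eisenstein4 ^ 3 * (dedekindEtaUnit * dedekindEtaUnitInv) * dedekindEtaUnit * P2inv ^ 2 := by
        rw [jNum, u2]; ring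
    _ = (eisenstein4 ^ 3 * dedekindEtaUnit * P2) * P2inv ^ 3 * (P2 * P2inv) ^ 0 := by
        rw [hP]
        calc eisenstein4 ^ 3 * 1 * dedekindEtaUnit * P2inv ^ 2
            = eisenstein4 ^ 3 * dedekindEtaUnit * P2inv ^ 2 * 1 := by ring
          _ = eisenstein4 ^ 3 * dedekindEtaUnit * P2inv ^ 2 * (P2 * P2inv) := by rw [hQ]
          _ = _ := by ring
    _ = (dedekindEtaUnit * P2inv + C 256 * X * (P2 * P2inv)) ^ 3 := by
        rw [H2a]; ring
    _ = (u2 + C 256 * X) ^ 3 := by rw [hQ, mul_one, u2]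

/-- `j(q²) t = (t + 16)³` in power series form (`t = q⁻¹ u`). -/
theorem expand_jNum_mul_u2 : expand 2 two_ne_zero jNum * u2 = (u2 + C 16 * X) ^ 3 := by
  have hQ := P2_mul_inv
  calc expand 2 two_ne_zero jNum * u2
      = E2 ^ 3 * dedekindEtaUnit * P2inv ^ 2 * 1 := by rw [expand_jNum, u2]; ring
    _ = E2 ^ 3 * dedekindEtaUnit * P2inv ^ 2 * (P2 * P2inv) := by rw [hQ]
    _ = (E2 ^ 3 * dedekindEtaUnit * P2) * P2inv ^ 3 := by ring
    _ = (dedekindEtaUnit * P2inv + C 16 * X * (P2 * P2inv)) ^ 3 := by rw [H2b]; ring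
    _ = (u2 + C 16 * X) ^ 3 := by rw [hQ, mul_one, u2]

/-! ### A coefficient of `u` -/

theorem clist_take {M M' : ℕ} (h : M' ≤ M) (f : PowerSeries ℤ) :
    clist M' f = (clist M f).take M' := by
  simp [clist, ← List.map_take, List.take_range, min_eq_left h]

theorem clist_P :
    clist 10 dedekindEtaUnit =
      [1, -24, 252, -1472, 4830, -6048, -16744, 84480, -113643, -115920] := by
  rw [dedekindEtaUnit, clist_pow, clist_etaProd]
  decide +kernel

theorem coeff_three_u2 : coeff 3 u2 = -2048 := by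
  have h := clist_mul 4 u2 P2
  rw [u2_mul_P2, P2, clist_expand, clist_take (M := 10) (by norm_num), clist_P] at h
  simp [clist, lmul, lexpand, lget, List.range_succ] at h
  omega

/-! ### Laurent series forms -/

theorem qExpand_ofPowerSeries (R : Type*) [CommRing R] (N : ℕ) [NeZero N] (f : PowerSeries R) :
    qExpand R N (HahnSeries.ofPowerSeries ℤ R f) =
      HahnSeries.ofPowerSeries ℤ R (PowerSeries.expand N (NeZero.ne N) f) := by
  have hNpos : (0 : ℤ) < N := by exact_mod_cast NeZero.pos N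
  ext k
  by_cases hk : (N : ℤ) ∣ k
  · obtain ⟨m, rfl⟩ := hk
    rw [qExpand_coeff_mul]
    rcases le_or_gt 0 m with hm | hm
    · lift m to ℕ using hm
      rw [HahnSeries.ofPowerSeries_apply_coeff,
        show (N : ℤ) * (m : ℤ) = ((N * m : ℕ) : ℤ) by push_cast; ring,
        HahnSeries.ofPowerSeries_apply_coeff, PowerSeries.coeff_expand_mul]
    · rw [ofPowerSeries_coeff_of_neg _ hm, ofPowerSeries_coeff_of_neg _ (by nlinarith)]
  · rw [qExpand_coeff_of_not_dvd N _ hk]
    rcases le_or_gt 0 k with hk0 | hk0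
    · lift k to ℕ using hk0
      rw [HahnSeries.ofPowerSeries_apply_coeff, PowerSeries.coeff_expand_of_not_dvd]
      exact_mod_cast hk
    · rw [ofPowerSeries_coeff_of_neg _ hk0]

/-- `q⁻¹` as a Laurent series. -/
noncomputable def qInv : LaurentSeries ℤ := HahnSeries.single (-1 : ℤ) (1 : ℤ)

theorem qInv_mul_X : qInv * HahnSeries.ofPowerSeries ℤ ℤ X = 1 := by
  rw [qInv, HahnSeries.ofPowerSeries_X, HahnSeries.single_mul_single]
  simp

theorem qInv_mul_add (v : PowerSeries ℤ) (a : ℤ) :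
    qInv * HahnSeries.ofPowerSeries ℤ ℤ (v + C a * X) =
      qInv * HahnSeries.ofPowerSeries ℤ ℤ v + HahnSeries.C a := by
  rw [map_add, map_mul, mul_add, HahnSeries.ofPowerSeries_C, mul_left_comm, qInv_mul_X, mul_one]

theorem jqModC_int : jqModC ℤ = qInv * HahnSeries.ofPowerSeries ℤ ℤ jNum := by
  have h : jNum.map (Int.castRingHom ℤ) = jNum := by
    ext n
    simp
  rw [jqModC, qInv, h]

theorem qExpand_qInv : qExpand ℤ 2 qInv = qInv ^ 2 := by
  rw [qInv, qExpand_single, HahnSeries.single_pow]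
  simp

/-- The Hauptmodul `t = q⁻¹ u = Δ(q)/Δ(q²)`. -/
noncomputable def t2 : LaurentSeries ℤ := qInv * HahnSeries.ofPowerSeries ℤ ℤ u2

/-- `j t² = (t + 256)³`. -/
theorem jq_mul_t2_sq : jqModC ℤ * t2 ^ 2 = (t2 + HahnSeries.C 256) ^ 3 := by
  rw [t2, ← qInv_mul_add, jqModC_int, mul_pow, mul_pow, ← map_pow, ← map_pow, ← jNum_mul_u2_sq,
    map_mul, map_pow]
  ring

/-- `j(q²) t = (t + 16)³`. -/
theorem jq_expand_mul_t2 : qExpand ℤ 2 (jqModC ℤ) * t2 = (t2 + HahnSeries.C 16) ^ 3 := by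
  rw [t2, ← qInv_mul_add, jqModC_int, map_mul, qExpand_qInv, qExpand_ofPowerSeries, mul_pow,
    ← map_pow, ← expand_jNum_mul_u2, map_mul]
  ring

end Fermat.Agent.S28.H2
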