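/-
The Hauptmodul data at level two (statement S28, work package A): `t = Δ(q)/Δ(q²)`,
`j t² = (t + 256)³`, `j(q²) t = (t + 16)³`.
-/
import Mathlib
import Fermat.Agent.S28.Defs
import Fermat.Agent.S28.Hauptmodul.H2

set_option autoImplicit false

namespace Fermat.Agent.S28

open Polynomial ModularCurve

/-- The Hauptmodul data at level two. -/
noncomputable def hauptmodul2 : Hauptmodul 2 where
  u := H2.u2
  constantCoeff_u := H2.constantCoeff_u2
  u_ne_one := by
    intro ℓ hℓ hne h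
    have h3 := congrArg (PowerSeries.coeff 3) h
    rw [PowerSeries.coeff_map, H2.coeff_three_u2, PowerSeries.coeff_one] at h3
    have h4 : ((-2048 : ℤ) : ZMod ℓ) = 0 := by simpa using h3
    rw [ZMod.intCast_zmod_eq_zero_iff_dvd] at h4
    have h5 : (ℓ : ℤ) ∣ 2 ^ 11 := by
      have : (-2048 : ℤ) = -(2 ^ 11) := by norm_num
      rw [this, dvd_neg] at h4
      exact h4
    have h6 : ℓ ∣ 2 ^ 11 := by exact_mod_cast h5
    have h7 : ℓ ∣ 2 := hℓ.dvd_of_dvd_pow h6
    exact hne ((Nat.prime_dvd_prime_iff_eq hℓ Nat.prime_two).mp h7)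
  P := (X + C 256) ^ 3
  P_monic := (monic_X_add_C 256).pow 3
  P_natDegree := by rw [natDegree_pow, natDegree_X_add_C]
  c := 4096
  c_eq := ⟨12, by norm_num⟩
  P_eval_zero := ⟨24, by simp⟩
  h1 := by
    have h := H2.jq_mul_t2_sq
    rw [H2.t2, H2.qInv] at h
    rw [h, map_pow, map_add, aeval_X, aeval_C,
      eq_intCast (algebraMap ℤ (HahnSeries ℤ ℤ)) 256,
      eq_intCast (HahnSeries.C : ℤ →+* HahnSeries ℤ ℤ) 256]
  h2 := by
    have h := H2.jq_expand_mul_t2
    rw [H2.t2, H2.qInv] at h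
    have hc : ∀ i, ((X + C (256 : ℤ)) ^ 3 : ℤ[X]).coeff i = 256 ^ (3 - i) * (Nat.choose 3 i : ℤ) :=
      fun i => by rw [coeff_X_add_C_pow]
    rw [mul_right_comm, h, eq_intCast (HahnSeries.C : ℤ →+* HahnSeries ℤ ℤ) 16,
      eq_intCast (HahnSeries.C : ℤ →+* HahnSeries ℤ ℤ) (4096 ^ 2)]
    simp only [dagger, Nat.reduceAdd, Finset.sum_range_succ, Finset.sum_range_zero, hc, map_add,
      map_mul, map_pow, aeval_X, aeval_C, eq_intCast (algebraMap ℤ (HahnSeries ℤ ℤ))]
    norm_num [Nat.choose]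
    ring

theorem nonempty_hauptmodul_two : Nonempty (Hauptmodul 2) := ⟨hauptmodul2⟩

end Fermat.Agent.S28
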