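/-
P-S28, WP-A, piece (H_3) (helper9): the level 3 Hauptmodul identities as formal identities in
`PowerSeries ℤ`.

With `E = eisenstein4`, `H = etaProd ^ 12`, `H3 = H(X^3)`, `E3 = E(X^3)`:
  `E ^ 3 * H * H3 = (H + 27 * X * H3) * (H + 243 * X * H3) ^ 3`
  `E3 ^ 3 * H * H3 = (H + 27 * X * H3) * (H + 3 * X * H3) ^ 3`
i.e. for `t = H / (X * H3)`: `j(q) t^3 = (t + 27) (t + 243)^3`, `j(q^3) t = (t + 27) (t + 3)^3`.

The identities are obtained from their squares (which are identities between modular forms of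
weight 48 on `Γ₀(3)`, checked by the Sturm bound on the coefficients `0..16`).
-/
import Mathlib
import Fermat.Agent.S28.Hauptmodul.TruncEngine
import Fermat.Agent.S28.Hauptmodul.MFSeries

set_option autoImplicit false

namespace Fermat.Agent.S28

open PowerSeries

namespace H3

open Fermat.Agent.S28.Trunc

local notation "E" => ModularCurve.eisenstein4
local notation "P" => ModularCurve.dedekindEtaUnit
local notation "ex3" => PowerSeries.expand (R := ℤ) 3 three_ne_zero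
local notation "Δ" => ((PowerSeries.X : PowerSeries ℤ) * ModularCurve.dedekindEtaUnit)

/-- first squared identity, in modular form shape -/
noncomputable def G1 : PowerSeries ℤ :=
  Δ * ex3 Δ * (E ^ 3 - C 756 * Δ - C 19131876 * ex3 Δ) ^ 2 -
    (Δ ^ 2 + C 196830 * (Δ * ex3 Δ) + C 387420489 * ex3 Δ ^ 2) ^ 2

/-- second squared identity, in modular form shape -/
noncomputable def G2 : PowerSeries ℤ :=
  Δ * ex3 Δ * (ex3 E ^ 3 - C 36 * Δ - C 756 * ex3 Δ) ^ 2 -
    (Δ ^ 2 + C 270 * (Δ * ex3 Δ) + C 729 * ex3 Δ ^ 2) ^ 2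

theorem G1_coeff : ∀ n ≤ 16, coeff n G1 = 0 := by
  have hE := approx_eisenstein4 16
  have hP := approx_dedekindEtaUnit 16
  have hΔ := hP.X_mul
  have hΔ3 := hΔ.expand 3 three_ne_zero
  have h1 := ((hΔ.mul hΔ3).mul
      ((((hE.pow 3).sub (hΔ.C_mul 756)).sub (hΔ3.C_mul 19131876)).pow 2)).sub
    ((((hΔ.pow 2).add ((hΔ.mul hΔ3).C_mul 196830)).add ((hΔ3.pow 2).C_mul 387420489)).pow 2)
  exact h1.eq_zero (by decide +kernel)

theorem G2_coeff : ∀ n ≤ 16, coeff n G2 = 0 := by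
  have hE := approx_eisenstein4 16
  have hE3 := hE.expand 3 three_ne_zero
  have hP := approx_dedekindEtaUnit 16
  have hΔ := hP.X_mul
  have hΔ3 := hΔ.expand 3 three_ne_zero
  have h1 := ((hΔ.mul hΔ3).mul
      ((((hE3.pow 3).sub (hΔ.C_mul 36)).sub (hΔ3.C_mul 756)).pow 2)).sub
    ((((hΔ.pow 2).add ((hΔ.mul hΔ3).C_mul 270)).add ((hΔ3.pow 2).C_mul 729)).pow 2)
  exact h1.eq_zero (by decide +kernel)


theorem isMFSeries_G1 (hΔ : DeltaBridge) : IsMFSeries 3 48 G1 := by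
  have hD := isMFSeries_Delta hΔ 3
  have hD3 : IsMFSeries 3 12 (ex3 Δ) := isMFSeries_Delta_expand hΔ 3
  have hE := isMFSeries_E4 3
  have hE3 : IsMFSeries 3 12 (E ^ 3) := (hE.pow 3).of_eq (by norm_num) rfl
  have h1 : IsMFSeries 3 12 (E ^ 3 - C 756 * Δ - C 19131876 * ex3 Δ) :=
    (hE3.sub (hD.C_mul 756)).sub (hD3.C_mul 19131876)
  have h2 : IsMFSeries 3 24 (Δ ^ 2 + C 196830 * (Δ * ex3 Δ) + C 387420489 * ex3 Δ ^ 2) :=
    (((hD.pow 2).of_eq (by norm_num) rfl).add (((hD.mul hD3).C_mul 196830).of_eq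
      (by norm_num) rfl)).add (((hD3.pow 2).C_mul 387420489).of_eq (by norm_num) rfl)
  exact (((hD.mul hD3).mul (h1.pow 2)).of_eq (by norm_num) rfl).sub
    ((h2.pow 2).of_eq (by norm_num) rfl)

theorem isMFSeries_G2 (hΔ : DeltaBridge) : IsMFSeries 3 48 G2 := by
  have hD := isMFSeries_Delta hΔ 3
  have hD3 : IsMFSeries 3 12 (ex3 Δ) := isMFSeries_Delta_expand hΔ 3
  have hE : IsMFSeries 3 4 (ex3 E) := isMFSeries_E4_expand 3
  have hE3 : IsMFSeries 3 12 (ex3 E ^ 3) := (hE.pow 3).of_eq (by norm_num) rfl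
  have h1 : IsMFSeries 3 12 (ex3 E ^ 3 - C 36 * Δ - C 756 * ex3 Δ) :=
    (hE3.sub (hD.C_mul 36)).sub (hD3.C_mul 756)
  have h2 : IsMFSeries 3 24 (Δ ^ 2 + C 270 * (Δ * ex3 Δ) + C 729 * ex3 Δ ^ 2) :=
    (((hD.pow 2).of_eq (by norm_num) rfl).add (((hD.mul hD3).C_mul 270).of_eq
      (by norm_num) rfl)).add (((hD3.pow 2).C_mul 729).of_eq (by norm_num) rfl)
  exact (((hD.mul hD3).mul (h1.pow 2)).of_eq (by norm_num) rfl).sub
    ((h2.pow 2).of_eq (by norm_num) rfl)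

theorem G1_eq_zero (hΔ : DeltaBridge) : G1 = 0 :=
  (isMFSeries_G1 hΔ).eq_zero_of_prime fun n hn => G1_coeff n (by
    have : ((48 : ℤ) * ((3 : ℕ) + 1)).toNat / 12 = 16 := by decide
    omega)

theorem G2_eq_zero (hΔ : DeltaBridge) : G2 = 0 :=
  (isMFSeries_G2 hΔ).eq_zero_of_prime fun n hn => G2_coeff n (by
    have : ((48 : ℤ) * ((3 : ℕ) + 1)).toNat / 12 = 16 := by decide
    omega)

/-! ### Unsquaring -/

local notation "η12" => (ModularCurve.etaProd ^ 12 : PowerSeries ℤ)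

theorem dedekindEtaUnit_eq_sq : P = η12 ^ 2 := by
  rw [ModularCurve.dedekindEtaUnit, ← pow_mul]

theorem constantCoeff_eta12 : constantCoeff η12 = 1 := by
  rw [map_pow, ModularCurve.constantCoeff_etaProd, one_pow]

theorem constantCoeff_ex3_eta12 : constantCoeff (ex3 η12) = 1 := by
  rw [constantCoeff_expand, constantCoeff_eta12]

theorem ex3_Δ_eq : ex3 Δ = PowerSeries.X ^ 3 * (ex3 η12) ^ 2 := by
  rw [map_mul, expand_X, dedekindEtaUnit_eq_sq, map_pow]

theorem X_pow_ne_zero (k : ℕ) : (PowerSeries.X : PowerSeries ℤ) ^ k ≠ 0 :=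
  pow_ne_zero k PowerSeries.X_ne_zero

/-- **Level 3 Hauptmodul identity for `j(q)`**: with `H = etaProd ^ 12`, `H3 = H(X^3)`,
`E₄ ^ 3 * H * H3 = (H + 27 X H3) (H + 243 X H3) ^ 3`. -/
theorem hauptmodul3_j (hΔ : DeltaBridge) :
    E ^ 3 * η12 * ex3 η12 =
      (η12 + 27 * PowerSeries.X * ex3 η12) * (η12 + 243 * PowerSeries.X * ex3 η12) ^ 3 := by
  have h0 := G1_eq_zero hΔ
  rw [G1, ex3_Δ_eq, dedekindEtaUnit_eq_sq] at h0
  have c1 : (C (756 : ℤ) : PowerSeries ℤ) = 756 := map_ofNat C 756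
  have c2 : (C (19131876 : ℤ) : PowerSeries ℤ) = 19131876 := map_ofNat C 19131876
  have c3 : (C (196830 : ℤ) : PowerSeries ℤ) = 196830 := map_ofNat C 196830
  have c4 : (C (387420489 : ℤ) : PowerSeries ℤ) = 387420489 := map_ofNat C 387420489
  rw [c1, c2, c3, c4] at h0
  set A := η12 with hA
  set B := ex3 η12 with hB
  have h1 : PowerSeries.X ^ 4 *
      ((A * B * (E ^ 3 - 756 * (PowerSeries.X * A ^ 2) -
          19131876 * (PowerSeries.X ^ 3 * B ^ 2))) ^ 2 -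
        (A ^ 4 + 196830 * (PowerSeries.X ^ 2 * A ^ 2 * B ^ 2) +
          387420489 * (PowerSeries.X ^ 4 * B ^ 4)) ^ 2) = 0 := by
    linear_combination h0
  have h2 := (mul_eq_zero.1 h1).resolve_left (X_pow_ne_zero 4)
  rcases sq_eq_sq_iff_eq_or_eq_neg.1 (sub_eq_zero.1 h2) with h3 | h3
  · linear_combination h3
  · exfalso
    have h4 := congrArg constantCoeff h3
    simp only [map_mul, map_sub, map_add, map_pow, map_neg, constantCoeff_X, hA, hB,
      constantCoeff_expand, ModularCurve.constantCoeff_etaProd,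
      ModularCurve.constantCoeff_eisenstein4, map_ofNat] at h4
    norm_num at h4

/-- **Level 3 Hauptmodul identity for `j(q^3)`**:
`E₄(X^3) ^ 3 * H * H3 = (H + 27 X H3) (H + 3 X H3) ^ 3`. -/
theorem hauptmodul3_j3 (hΔ : DeltaBridge) :
    ex3 E ^ 3 * η12 * ex3 η12 =
      (η12 + 27 * PowerSeries.X * ex3 η12) * (η12 + 3 * PowerSeries.X * ex3 η12) ^ 3 := by
  have h0 := G2_eq_zero hΔ
  rw [G2, ex3_Δ_eq, dedekindEtaUnit_eq_sq] at h0
  have c1 : (C (36 : ℤ) : PowerSeries ℤ) = 36 := map_ofNat C 36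
  have c2 : (C (756 : ℤ) : PowerSeries ℤ) = 756 := map_ofNat C 756
  have c3 : (C (270 : ℤ) : PowerSeries ℤ) = 270 := map_ofNat C 270
  have c4 : (C (729 : ℤ) : PowerSeries ℤ) = 729 := map_ofNat C 729
  rw [c1, c2, c3, c4] at h0
  set A := η12 with hA
  set B := ex3 η12 with hB
  set F := ex3 E with hF
  have h1 : PowerSeries.X ^ 4 *
      ((A * B * (F ^ 3 - 36 * (PowerSeries.X * A ^ 2) -
          756 * (PowerSeries.X ^ 3 * B ^ 2))) ^ 2 -
        (A ^ 4 + 270 * (PowerSeries.X ^ 2 * A ^ 2 * B ^ 2) +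
          729 * (PowerSeries.X ^ 4 * B ^ 4)) ^ 2) = 0 := by
    linear_combination h0
  have h2 := (mul_eq_zero.1 h1).resolve_left (X_pow_ne_zero 4)
  rcases sq_eq_sq_iff_eq_or_eq_neg.1 (sub_eq_zero.1 h2) with h3 | h3
  · linear_combination h3
  · exfalso
    have h4 := congrArg constantCoeff h3
    simp only [map_mul, map_sub, map_add, map_pow, map_neg, constantCoeff_X, hA, hB, hF,
      constantCoeff_expand, ModularCurve.constantCoeff_etaProd,
      ModularCurve.constantCoeff_eisenstein4, map_ofNat] at h4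
    norm_num at h4

end H3

end Fermat.Agent.S28
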