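/-
P-S28, WP-A, piece (H_3) (helper9): the Hauptmodul datum at level 3,
`hauptmodul3 : Hauptmodul 3`, with `t = q⁻¹ ∏ ((1 - qⁿ) / (1 - q³ⁿ))¹²`,
`j(q) t³ = (t + 27) (t + 243)³`, `j(q³) t = (t + 27) (t + 3)³`.
-/
import Mathlib
import Fermat.Agent.S28.Hauptmodul.H3
import Fermat.Agent.S28.Defs
import Fermat.Agent.S24.JQExp

set_option autoImplicit false

namespace Fermat.Agent.S28

open PowerSeries

namespace H3

open Fermat.Agent.S28.Trunc

local notation "E" => ModularCurve.eisenstein4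
local notation "ex3" => PowerSeries.expand (R := ℤ) 3 three_ne_zero
local notation "η12" => (ModularCurve.etaProd ^ 12 : PowerSeries ℤ)

theorem deltaBridge : DeltaBridge := Fermat.Agent.S24.JQExp.qExpansion_discriminant

/-- inverse of `η12(X^3)` -/
noncomputable def eta12Inv3 : PowerSeries ℤ := (ex3 η12).invOfUnit 1

theorem ex3_eta12_mul_inv : ex3 η12 * eta12Inv3 = 1 :=
  PowerSeries.mul_invOfUnit _ _ (by rw [constantCoeff_ex3_eta12]; rfl)

/-- the unit part `u` of the level 3 Hauptmodul `t = q⁻¹ u` -/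
noncomputable def u3 : PowerSeries ℤ := η12 * eta12Inv3

theorem u3_mul : u3 * ex3 η12 = η12 := by
  rw [u3, mul_assoc, mul_comm eta12Inv3, ex3_eta12_mul_inv, mul_one]

theorem constantCoeff_u3 : constantCoeff u3 = 1 := by
  have h := congrArg constantCoeff u3_mul
  rwa [map_mul, constantCoeff_ex3_eta12, mul_one, constantCoeff_eta12] at h

theorem coeff_four_u3 : coeff 4 u3 = -243 := by
  have hη := (approx_etaProd 4).pow 12
  have h := Approx.of_mul_eq (hη.expand 3 three_ne_zero) hη (by decide +kernel) u3_mul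
  rw [h 4 le_rfl]
  decide +kernel

/-! ### The power series identities -/

theorem jNum_mul_u3_pow :
    ModularCurve.jNum * u3 ^ 3 =
      (u3 + 27 * PowerSeries.X) * (u3 + 243 * PowerSeries.X) ^ 3 := by
  have hm := hauptmodul3_j deltaBridge
  have hb := ex3_eta12_mul_inv
  have hp := ModularCurve.dedekindEtaUnit_mul_inv
  rw [dedekindEtaUnit_eq_sq] at hp
  rw [ModularCurve.jNum, u3]
  set a := η12
  set b := ex3 η12
  set bi := eta12Inv3
  set pi := ModularCurve.dedekindEtaUnitInv
  have e1 : a * bi + 27 * PowerSeries.X = (a + 27 * PowerSeries.X * b) * bi := by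
    linear_combination (-(27 * PowerSeries.X)) * hb
  have e2 : a * bi + 243 * PowerSeries.X = (a + 243 * PowerSeries.X * b) * bi := by
    linear_combination (-(243 * PowerSeries.X)) * hb
  rw [e1, e2]
  linear_combination (E ^ 3 * a * bi ^ 3) * hp + bi ^ 4 * hm - (E ^ 3 * a * bi ^ 3) * hb

theorem ex3_jNum_mul_u3 :
    ex3 ModularCurve.jNum * u3 =
      (u3 + 27 * PowerSeries.X) * (u3 + 3 * PowerSeries.X) ^ 3 := by
  have hm := hauptmodul3_j3 deltaBridge
  have hb := ex3_eta12_mul_inv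
  have hp := congrArg ex3 ModularCurve.dedekindEtaUnit_mul_inv
  rw [dedekindEtaUnit_eq_sq, map_mul, map_pow, map_one] at hp
  rw [ModularCurve.jNum, u3, map_mul, map_pow]
  set a := η12
  set b := ex3 η12
  set bi := eta12Inv3
  set pi3 := ex3 ModularCurve.dedekindEtaUnitInv
  set F := ex3 E
  have e1 : a * bi + 27 * PowerSeries.X = (a + 27 * PowerSeries.X * b) * bi := by
    linear_combination (-(27 * PowerSeries.X)) * hb
  have e2 : a * bi + 3 * PowerSeries.X = (a + 3 * PowerSeries.X * b) * bi := by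
    linear_combination (-(3 * PowerSeries.X)) * hb
  rw [e1, e2]
  linear_combination (F ^ 3 * a * bi ^ 3) * hp -
    (F ^ 3 * a * bi * pi3 * (b * bi + 1) + F ^ 3 * a * bi ^ 3) * hb + bi ^ 4 * hm

/-! ### Transfer to Laurent series -/

theorem qExpand_ofPowerSeries {R : Type*} [CommRing R] (N : ℕ) [NeZero N] (f : PowerSeries R) :
    ModularCurve.qExpand R N (HahnSeries.ofPowerSeries ℤ R f) =
      HahnSeries.ofPowerSeries ℤ R (PowerSeries.expand N (NeZero.ne N) f) := by
  ext k
  by_cases hk : (N : ℤ) ∣ k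
  · obtain ⟨m, rfl⟩ := hk
    rw [ModularCurve.qExpand_coeff_mul]
    rcases le_or_gt 0 m with hm | hm
    · lift m to ℕ using hm
      rw [HahnSeries.ofPowerSeries_apply_coeff, show (N : ℤ) * (m : ℤ) = ((N * m : ℕ) : ℤ) by
        push_cast; ring, HahnSeries.ofPowerSeries_apply_coeff, PowerSeries.coeff_expand_mul]
    · have hN : (0 : ℤ) < N := by exact_mod_cast Nat.pos_of_ne_zero (NeZero.ne N)
      rw [ModularCurve.ofPowerSeries_coeff_of_neg _ hm,
        ModularCurve.ofPowerSeries_coeff_of_neg _ (mul_neg_of_pos_of_neg hN hm)]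
  · rw [ModularCurve.qExpand_coeff_of_not_dvd N _ hk]
    rcases le_or_gt 0 k with hk0 | hk0
    · lift k to ℕ using hk0
      rw [HahnSeries.ofPowerSeries_apply_coeff, PowerSeries.coeff_expand_of_not_dvd]
      intro h
      exact hk (by exact_mod_cast h)
    · rw [ModularCurve.ofPowerSeries_coeff_of_neg _ hk0]

/-- the polynomial `(X + 27) (X + 243)³` -/
noncomputable def P3 : Polynomial ℤ :=
  Polynomial.X ^ 4 + Polynomial.C 756 * Polynomial.X ^ 3 + Polynomial.C 196830 * Polynomial.X ^ 2 +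
    Polynomial.C 19131876 * Polynomial.X + Polynomial.C 387420489

theorem P3_monic : P3.Monic := by
  unfold P3
  monicity!

theorem P3_natDegree : P3.natDegree = 3 + 1 := by
  unfold P3
  compute_degree!

local notation "T" => (HahnSeries.single (-1 : ℤ) (1 : ℤ) : LaurentSeries ℤ)
local notation "φ" => HahnSeries.ofPowerSeries ℤ ℤ

theorem T_mul_X : T * φ PowerSeries.X = 1 := by
  rw [HahnSeries.ofPowerSeries_X, HahnSeries.single_mul_single]
  simp

theorem t_add_const (v : PowerSeries ℤ) (a : ℤ) :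
    T * φ v + (a : LaurentSeries ℤ) = T * φ (v + PowerSeries.C a * PowerSeries.X) := by
  rw [map_add, map_mul, mul_add, HahnSeries.ofPowerSeries_C, mul_left_comm, T_mul_X, mul_one]
  simp

theorem jqModC_int : ModularCurve.jqModC ℤ = T * φ ModularCurve.jNum := by
  rw [ModularCurve.jqModC, Int.castRingHom_int, PowerSeries.map_id]
  rfl

theorem aeval_P3 (t : LaurentSeries ℤ) :
    Polynomial.aeval t P3 = (t + 27) * (t + 243) ^ 3 := by
  have h : Polynomial.aeval t P3 =
      t ^ 4 + 756 * t ^ 3 + 196830 * t ^ 2 + 19131876 * t + 387420489 := by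
    simp only [P3, map_add, map_mul, map_pow, Polynomial.aeval_X, Polynomial.aeval_C]
    simp
  rw [h]
  ring

theorem h1_aux :
    ModularCurve.jqModC ℤ * (T * φ u3) ^ 3 = Polynomial.aeval (T * φ u3) P3 := by
  have e1 := t_add_const u3 27
  have e2 := t_add_const u3 243
  have h := congrArg (fun x => T ^ 4 * φ x) jNum_mul_u3_pow
  simp only [map_mul, map_pow] at h
  rw [jqModC_int, aeval_P3]
  have c1 : (PowerSeries.C (27 : ℤ) : PowerSeries ℤ) = 27 := map_ofNat _ 27
  have c2 : (PowerSeries.C (243 : ℤ) : PowerSeries ℤ) = 243 := map_ofNat _ 243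
  rw [c1] at e1
  rw [c2] at e2
  have h' : T ^ 4 * (φ ModularCurve.jNum * φ u3 ^ 3) =
      (T * φ (u3 + 27 * PowerSeries.X)) * (T * φ (u3 + 243 * PowerSeries.X)) ^ 3 := by
    rw [h]; ring
  rw [← e1, ← e2] at h'
  push_cast at h'
  linear_combination h'

theorem P3_coeff_zero : P3.coeff 0 = 387420489 := by
  simp [P3]

theorem P3_coeff_one : P3.coeff 1 = 19131876 := by
  simp [P3, Polynomial.coeff_X]

theorem P3_coeff_two : P3.coeff 2 = 196830 := by
  simp [P3, Polynomial.coeff_X]

theorem P3_coeff_three : P3.coeff 3 = 756 := by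
  simp [P3, Polynomial.coeff_X]

theorem P3_coeff_four : P3.coeff 4 = 1 := by
  simp [P3, Polynomial.coeff_X]

theorem aeval_dagger_P3 (t : LaurentSeries ℤ) :
    Polynomial.aeval t (dagger 3 729 P3) = 387420489 * ((t + 27) * (t + 3) ^ 3) := by
  have h : Polynomial.aeval t (dagger 3 729 P3) =
      387420489 * t ^ 4 + 13947137604 * t ^ 3 + 104603532030 * t ^ 2 + 292889889684 * t +
        282429536481 := by
    simp only [dagger, Finset.sum_range_succ, Finset.sum_range_zero, P3_coeff_zero, P3_coeff_one,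
      P3_coeff_two, P3_coeff_three, map_add, map_mul, map_pow, Polynomial.aeval_X,
      Polynomial.aeval_C]
    simp [P3_coeff_four]
    norm_num
  rw [h]
  ring

theorem qExpand_jqModC_int :
    ModularCurve.qExpand ℤ 3 (ModularCurve.jqModC ℤ) = T ^ 3 * φ (ex3 ModularCurve.jNum) := by
  rw [jqModC_int, map_mul, ModularCurve.qExpand_single, qExpand_ofPowerSeries,
    HahnSeries.single_pow]
  simp

theorem h2_aux :
    ModularCurve.qExpand ℤ 3 (ModularCurve.jqModC ℤ) * HahnSeries.C ((729 : ℤ) ^ 3) * (T * φ u3) =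
      Polynomial.aeval (T * φ u3) (dagger 3 729 P3) := by
  have e1 := t_add_const u3 27
  have e2 := t_add_const u3 3
  have h := congrArg (fun x => T ^ 4 * φ x) ex3_jNum_mul_u3
  simp only [map_mul, map_pow] at h
  rw [qExpand_jqModC_int, aeval_dagger_P3]
  have c1 : (PowerSeries.C (27 : ℤ) : PowerSeries ℤ) = 27 := map_ofNat _ 27
  have c2 : (PowerSeries.C (3 : ℤ) : PowerSeries ℤ) = 3 := map_ofNat _ 3
  rw [c1] at e1
  rw [c2] at e2
  have h' : T ^ 4 * (φ (ex3 ModularCurve.jNum) * φ u3) =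
      (T * φ (u3 + 27 * PowerSeries.X)) * (T * φ (u3 + 3 * PowerSeries.X)) ^ 3 := by
    rw [h]; ring
  rw [← e1, ← e2] at h'
  push_cast at h'
  have c3 : (HahnSeries.C ((729 : ℤ) ^ 3) : LaurentSeries ℤ) = 387420489 := by
    rw [show ((729 : ℤ) ^ 3) = 387420489 by norm_num]
    exact map_ofNat _ 387420489
  rw [c3]
  linear_combination (387420489 : LaurentSeries ℤ) * h'

theorem u3_map_ne_one (ℓ : ℕ) (hℓ : ℓ.Prime) (h3 : ℓ ≠ 3) :
    u3.map (Int.castRingHom (ZMod ℓ)) ≠ 1 := by
  intro h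
  have h4 := congrArg (PowerSeries.coeff 4) h
  rw [PowerSeries.coeff_map, coeff_four_u3, PowerSeries.coeff_one, if_neg (by norm_num)] at h4
  have h5 : ((243 : ℕ) : ZMod ℓ) = 0 := by
    have : ((-243 : ℤ) : ZMod ℓ) = 0 := h4
    push_cast at this ⊢
    simpa using this
  rw [ZMod.natCast_eq_zero_iff] at h5
  have h6 : ℓ ∣ 3 ^ 5 := by norm_num; exact h5
  exact h3 ((Nat.prime_dvd_prime_iff_eq hℓ Nat.prime_three).1 (hℓ.dvd_of_dvd_pow h6))

end H3

/-- **The Hauptmodul datum at level 3.** -/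
noncomputable def hauptmodul3 : Hauptmodul 3 where
  u := H3.u3
  constantCoeff_u := H3.constantCoeff_u3
  u_ne_one := H3.u3_map_ne_one
  P := H3.P3
  P_monic := H3.P3_monic
  P_natDegree := H3.P3_natDegree
  c := 729
  c_eq := ⟨6, by norm_num⟩
  P_eval_zero := ⟨18, by
    rw [← Polynomial.coeff_zero_eq_eval_zero, H3.P3_coeff_zero]; norm_num⟩
  h1 := H3.h1_aux
  h2 := H3.h2_aux

end Fermat.Agent.S28
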