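/-
A small certified engine for the first coefficients of integral power series
(statement S28, work package A, level two Hauptmodul identities).
-/
import Mathlib
import Fermat.Prelude.Def_ModularCurve_X0

set_option autoImplicit false

namespace Fermat.Agent.S28.H2

open PowerSeries

/-- The list of the first `M` coefficients of a power series. -/
noncomputable def clist (M : ℕ) (f : PowerSeries ℤ) : List ℤ :=
  (List.range M).map fun n => coeff n f

/-- Entry `i` of a coefficient list (zero beyond the end). -/
def lget (a : List ℤ) (i : ℕ) : ℤ := a.getD i 0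

theorem lget_clist {M i : ℕ} (h : i < M) (f : PowerSeries ℤ) : lget (clist M f) i = coeff i f := by
  simp [lget, clist, h]

theorem clist_eq_of_forall {M : ℕ} {f : PowerSeries ℤ} {φ : ℕ → ℤ}
    (h : ∀ n, n < M → coeff n f = φ n) : clist M f = (List.range M).map φ := by
  apply List.map_congr_left
  intro n hn
  exact h n (List.mem_range.mp hn)

theorem coeff_eq_zero_of_clist {M : ℕ} {f : PowerSeries ℤ}
    (h : clist M f = List.replicate M 0) {n : ℕ} (hn : n < M) : coeff n f = 0 := by
  rw [← lget_clist hn f, h]
  simp [lget, hn]

/-- Truncated product. -/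
def lmul (M : ℕ) (a b : List ℤ) : List ℤ :=
  (List.range M).map fun n => ((List.range (n + 1)).map fun i => lget a i * lget b (n - i)).sum

/-- Truncated sum. -/
def ladd (M : ℕ) (a b : List ℤ) : List ℤ :=
  (List.range M).map fun n => lget a n + lget b n

/-- Truncated difference. -/
def lsub (M : ℕ) (a b : List ℤ) : List ℤ :=
  (List.range M).map fun n => lget a n - lget b n

/-- Truncated scalar multiple. -/
def lsmul (M : ℕ) (c : ℤ) (a : List ℤ) : List ℤ :=
  (List.range M).map fun n => c * lget a n

/-- Truncated multiplication by `X ^ k`. -/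
def lshift (M k : ℕ) (a : List ℤ) : List ℤ :=
  (List.range M).map fun n => if k ≤ n then lget a (n - k) else 0

/-- Truncated substitution `X ↦ X ^ N`. -/
def lexpand (M N : ℕ) (a : List ℤ) : List ℤ :=
  (List.range M).map fun n => if N ∣ n then lget a (n / N) else 0

/-- Truncated powers. -/
def lpow (M : ℕ) (a : List ℤ) : ℕ → List ℤ
  | 0 => (List.range M).map fun n => if n = 0 then 1 else 0
  | (k + 1) => lmul M (lpow M a k) a

theorem list_sum_map_range (φ : ℕ → ℤ) (n : ℕ) :
    ((List.range n).map φ).sum = ∑ i ∈ Finset.range n, φ i := by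
  induction n with
  | zero => simp
  | succ n ih => rw [List.range_succ, List.map_append, List.sum_append, ih, Finset.sum_range_succ]; simp

theorem clist_mul (M : ℕ) (f g : PowerSeries ℤ) :
    clist M (f * g) = lmul M (clist M f) (clist M g) := by
  apply clist_eq_of_forall
  intro n hn
  rw [coeff_mul, Finset.Nat.sum_antidiagonal_eq_sum_range_succ_mk, list_sum_map_range]
  apply Finset.sum_congr rfl
  intro i hi
  have hi' : i < n + 1 := Finset.mem_range.mp hi
  rw [lget_clist (by omega), lget_clist (by omega)]

theorem clist_add (M : ℕ) (f g : PowerSeries ℤ) :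
    clist M (f + g) = ladd M (clist M f) (clist M g) := by
  apply clist_eq_of_forall
  intro n hn
  rw [map_add, lget_clist hn, lget_clist hn]

theorem clist_sub (M : ℕ) (f g : PowerSeries ℤ) :
    clist M (f - g) = lsub M (clist M f) (clist M g) := by
  apply clist_eq_of_forall
  intro n hn
  rw [map_sub, lget_clist hn, lget_clist hn]

theorem clist_C_mul (M : ℕ) (c : ℤ) (f : PowerSeries ℤ) :
    clist M (C c * f) = lsmul M c (clist M f) := by
  apply clist_eq_of_forall
  intro n hn
  rw [coeff_C_mul, lget_clist hn]

theorem clist_X_pow_mul (M k : ℕ) (f : PowerSeries ℤ) :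
    clist M (X ^ k * f) = lshift M k (clist M f) := by
  apply clist_eq_of_forall
  intro n hn
  rw [coeff_X_pow_mul']
  split_ifs with h
  · rw [lget_clist (by omega)]
  · rfl

theorem clist_X_mul (M : ℕ) (f : PowerSeries ℤ) :
    clist M (X * f) = lshift M 1 (clist M f) := by
  rw [← clist_X_pow_mul, pow_one]

theorem clist_expand (M N : ℕ) (hN : N ≠ 0) (f : PowerSeries ℤ) :
    clist M (expand N hN f) = lexpand M N (clist M f) := by
  apply clist_eq_of_forall
  intro n hn
  rw [coeff_expand]
  split_ifs with h
  · rw [lget_clist (lt_of_le_of_lt (Nat.div_le_self n N) hn)]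
  · rfl

theorem clist_pow (M : ℕ) (f : PowerSeries ℤ) (k : ℕ) :
    clist M (f ^ k) = lpow M (clist M f) k := by
  induction k with
  | zero =>
    rw [pow_zero, lpow]
    apply clist_eq_of_forall
    intro n _
    rw [coeff_one]
  | succ k ih => rw [pow_succ, clist_mul, ih, lpow]

end Fermat.Agent.S28.H2
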